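/-
S15, block A (endgame; architect helper17): definitions and the contracts consumed by `S15/Top`.

Level `N` (the prime `p` of the frozen statement), `F = FN N = ℚ̄(X₀(N))`, `j = jF N`,
`j_N = jN N = j(q^N)`, `∞ = W.cusp N`.  For a valuation ring `A` of `ℚ̄` and a place `P` of `F`,
`S37.compRing A P = {f | f regular at P, f(P) ∈ A}` is the composite valuation ring `O_{P,A}`, with
valuation `V`.

* `NearInf N A P`  : `1 < V(j) < V(j_N)`   (then `V(j_N) = V(j)^N` by the modular equation)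
* `NearZero N A P` : `1 < V(j)`, `V(j_N) < V(j)`   (then `V(j_N)^N = V(j)`)
  The cusps themselves are included (`P = ∞` is `NearInf`, the cusp `0` is `NearZero`, for all `A`).
* `ND N A` : the group of divisors generated by `(P) - (P')`, `P`, `P'` near the same cusp
* `NN N A` : the group of their classes in `J₀(N)`
-/
import Fermat.Agent.S15.Defs
import Fermat.Agent.S27.Cls
import Fermat.Agent.S37.Val
import Fermat.Agent.S17.W.Cusp
import Fermat.Prelude.Def_EllipticCurve_ZeroComponentAt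
import Fermat.Prelude.Def_FLTPrelim_Ramification

set_option autoImplicit false

noncomputable section

namespace Fermat.Agent.S15.A

open ModularCurve AlgebraicCurve Fermat.Agent.S24 Fermat.Agent.S27 Fermat.Agent.S37
open WeierstrassCurve WeierstrassCurve.Affine

section Abstract

variable {F : Type*} [Field F]

/-- `1 < V(J) < V(J')`. -/
def VInf (O : ValuationSubring F) (J J' : F) : Prop :=
  1 < O.valuation J ∧ O.valuation J < O.valuation J'

/-- `1 < V(J)`, `V(J') < V(J)`. -/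
def VZero (O : ValuationSubring F) (J J' : F) : Prop :=
  1 < O.valuation J ∧ O.valuation J' < O.valuation J

end Abstract

variable (N : ℕ) [NeZero N]

/-- `j_N = j(q^N)`. -/
def jN : FN N := JF N N dvd_rfl

/-- the cusp `∞`. -/
abbrev cInf : Place Kbar (FN N) := Fermat.Agent.S17.W.cusp N

variable (A : ValuationSubring Kbar)

/-- `P` is near the cusp `∞` at `A`. -/
def NearInf (P : Place Kbar (FN N)) : Prop := VInf (compRing A P) (jF N) (jN N)

/-- `P` is near the cusp `0` at `A`. -/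
def NearZero (P : Place Kbar (FN N)) : Prop := VZero (compRing A P) (jF N) (jN N)

/-- `P` and `P'` are near the same cusp at `A`. -/
def Same (P P' : Place Kbar (FN N)) : Prop :=
  (NearInf N A P ∧ NearInf N A P') ∨ (NearZero N A P ∧ NearZero N A P')

/-- divisors generated by `(P) - (P')`, `P`, `P'` near the same cusp. -/
def ND : AddSubgroup (Divisor Kbar (FN N)) :=
  AddSubgroup.closure {D | ∃ P P', Same N A P P' ∧ D = pt P - pt P'}

/-- classes generated by `(P) - (P')`, `P`, `P'` near the same cusp. -/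
def NN : AddSubgroup (JZero N) :=
  AddSubgroup.closure {x | ∃ P P', Same N A P P' ∧ x = cls (pt P - pt P')}

/-- `z` is the cusp `0`. -/
structure IsCusp0 (z : Place Kbar (FN N)) : Prop where
  ord_j : z.ord (jF N) = -(N : ℤ)
  ord_jN : z.ord (jN N) = -1
  only : ∀ v : Place Kbar (FN N), v.ord (jF N) < 0 → v = cInf N ∨ v = z

/-- the place `x` is fixed by `G_ℚ`. -/
def FixedPl (x : Place Kbar (FN N)) : Prop :=
  ∀ σ : GQ, arithmeticGalois (modularFunctionFieldFull N) σ • x = x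

/-- the cuspidal class `(0) - (∞)`. -/
def cc (z : Place Kbar (FN N)) : JZero N := cls (pt z - pt (cInf N))

/-! ## The contracts -/

/-- **Dict** (block C, helper24). -/
def Dict : Prop :=
  ∀ (W : WeierstrassCurve ℤ), W.Δ ≠ 0 →
    ∀ Q : ((W.map (Int.castRingHom ℚ))⁄(AlgebraicClosure ℚ)).Point,
      (∀ σ : AlgebraicClosure ℚ ≃ₐ[ℚ] AlgebraicClosure ℚ, σ • Q = Q) → addOrderOf Q = N →
      (2 : ℤ) ∣ W.Δ → ¬ (2 : ℤ) ∣ W.c₄ →
      (∀ A : ValuationSubring (AlgebraicClosure ℚ), A.LiesOverPrime 2 →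
        ¬ W.InZeroComponentAt A Q) →
      ∃ x : Place Kbar (FN N), FixedPl N x ∧
        ∀ ℓ : ℕ, ℓ.Prime → ℓ ≠ N → (ℓ : ℤ) ∣ W.Δ → ¬ (ℓ : ℤ) ∣ W.c₄ →
          ∀ A : ValuationSubring Kbar, A.LiesOverPrime ℓ →
            (W.InZeroComponentAt A Q → NearInf N A x) ∧
              (¬ W.InZeroComponentAt A Q → NearZero N A x)

/-- **Cusp** (A-CUSP, helper77): the cusp `0`; the cuspidal class is rational, torsion, nonzero. -/
def CuspStmt (z : Place Kbar (FN N)) : Prop :=
  IsCusp0 N z ∧ FixedPl N z ∧ (N - 1) • cc N z = 0 ∧ cc N z ≠ 0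

/-- **Eisenstein** (A-HECKE, helper17). -/
def EisStmt (z : Place Kbar (FN N)) : Prop :=
  ∀ p : ℕ, p.Prime → ¬ p ∣ N → Tp N p (cc N z) = (1 + p) • cc N z

/-- **Hecke stability** (A-HECKE, helper17). -/
def HeckeStable : Prop :=
  ∀ A : ValuationSubring Kbar, ∀ p : ℕ, p.Prime → ¬ p ∣ N → ∀ x ∈ NN N A, Tp N p x ∈ NN N A

/-- **No prime-to-`ℓ` torsion** (A-RED, helper137). -/
def TorsFree : Prop :=
  ∀ ℓ : ℕ, ℓ.Prime → ¬ ℓ ∣ N → ∀ A : ValuationSubring Kbar, A.LiesOverPrime ℓ →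
    ∀ x ∈ NN N A, ∀ m : ℕ, ¬ ℓ ∣ m → m • x = 0 → x = 0

/-- **The case `ℓ = r ≥ 5`** (A-CUSP, helper77). -/
def RCase (z : Place Kbar (FN N)) : Prop :=
  ∀ ℓ : ℕ, ℓ.Prime → 5 ≤ ℓ → ¬ ℓ ∣ N → ∀ A : ValuationSubring Kbar, A.LiesOverPrime ℓ →
    ∀ k : ℤ, k • cc N z ∈ NN N A → ℓ • (k • cc N z) = 0 → k • cc N z = 0

end Fermat.Agent.S15.A

end
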