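/-
S15, block A (helper17): criteria for `NearInf`, `NearZero`.
-/
import Fermat.Agent.S15.A.Defs
import Fermat.Agent.S24.B.TExp

set_option autoImplicit false

noncomputable section

namespace Fermat.Agent.S15.A

open ModularCurve AlgebraicCurve Fermat.Agent.S24 Fermat.Agent.S27 Fermat.Agent.S37

section Abstract

variable {F : Type*} [Field F] {O : ValuationSubring F} {J J' : F}

theorem one_lt_valuation_iff : 1 < O.valuation J ↔ J ∉ O := by
  rw [← not_le, ValuationSubring.valuation_le_one_iff]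

theorem valuation_lt_iff (hJ' : J' ≠ 0) :
    O.valuation J < O.valuation J' ↔ J / J' ∈ O.nonunits := by
  have h0 : O.valuation J' ≠ 0 := (Valuation.ne_zero_iff _).2 hJ'
  rw [ValuationSubring.mem_nonunits_iff, map_div₀, div_lt_one₀ (zero_lt_iff.2 h0)]

theorem vInf_iff (hJ' : J' ≠ 0) : VInf O J J' ↔ J ∉ O ∧ J / J' ∈ O.nonunits := by
  rw [VInf, one_lt_valuation_iff, valuation_lt_iff hJ']

theorem vZero_iff (hJ : J ≠ 0) : VZero O J J' ↔ J ∉ O ∧ J' / J ∈ O.nonunits := by
  rw [VZero, one_lt_valuation_iff, valuation_lt_iff hJ]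

theorem not_vInf_of_vZero (h : VZero O J J') : ¬ VInf O J J' := fun h' =>
  lt_asymm h.2 h'.2

end Abstract

variable {N : ℕ} [NeZero N]

theorem coe_jN : ((jN N : FN N) : LaurentSeries Kbar) = Jser N := rfl

theorem coe_jF' : ((jF N : FN N) : LaurentSeries Kbar) = Jser 1 := rfl

theorem order_Jser (d : ℕ) [NeZero d] : (Jser d).order = -(d : ℤ) := by
  rw [B.Jser_eq_qExpand, B.order_qExpand, B.order_Jser_one]
  ring

theorem Jser_ne_zero (d : ℕ) [NeZero d] : Jser d ≠ 0 := by
  intro h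
  have h1 := order_Jser d
  rw [h, HahnSeries.order_zero] at h1
  have : (d : ℤ) ≠ 0 := by exact_mod_cast NeZero.ne d
  omega

theorem jF_ne_zero : jF N ≠ 0 := fun h => Jser_ne_zero 1 (congrArg Subtype.val h)

theorem jN_ne_zero : jN N ≠ 0 := fun h => Jser_ne_zero N (congrArg Subtype.val h)

theorem ord_cInf_jF : (cInf N).ord (jF N) = -1 := by
  rw [Fermat.Agent.S17.W.ord_cusp N _ jF_ne_zero, coe_jF', B.order_Jser_one]

theorem ord_cInf_jN : (cInf N).ord (jN N) = -(N : ℤ) := by
  rw [Fermat.Agent.S17.W.ord_cusp N _ jN_ne_zero, coe_jN, order_Jser]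

variable {A : ValuationSubring Kbar} {P : Place Kbar (FN N)}

theorem notMem_compRing_of_ord_neg {f : FN N} (h : P.ord f < 0) : f ∉ compRing A P := fun h' =>
  absurd h'.1 (not_le.2 h)

theorem mem_nonunits_of_ord_pos {f : FN N} (h : 0 < P.ord f) : f ∈ (compRing A P).nonunits :=
  mem_nonunits_compRing.2 ⟨h.le, by rw [val_of_pos h]; exact zero_mem _⟩

/-- a pole of `j` at which `j_N` has a bigger pole is near `∞` -/
theorem nearInf_of_ord (h1 : P.ord (jF N) < 0) (h2 : P.ord (jN N) < P.ord (jF N)) :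
    NearInf N A P := by
  rw [NearInf, vInf_iff jN_ne_zero]
  refine ⟨notMem_compRing_of_ord_neg h1, mem_nonunits_of_ord_pos ?_⟩
  rw [div_eq_mul_inv, P.ord_mul jF_ne_zero (inv_ne_zero jN_ne_zero), P.ord_inv]
  omega

/-- a pole of `j` at which `j_N` has a smaller pole is near `0` -/
theorem nearZero_of_ord (h1 : P.ord (jF N) < 0) (h2 : P.ord (jF N) < P.ord (jN N)) :
    NearZero N A P := by
  rw [NearZero, vZero_iff jF_ne_zero]
  refine ⟨notMem_compRing_of_ord_neg h1, mem_nonunits_of_ord_pos ?_⟩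
  rw [div_eq_mul_inv, P.ord_mul jN_ne_zero (inv_ne_zero jF_ne_zero), P.ord_inv]
  omega

theorem nearInf_cInf (hN : 2 ≤ N) (A : ValuationSubring Kbar) : NearInf N A (cInf N) := by
  apply nearInf_of_ord
  · rw [ord_cInf_jF]; norm_num
  · rw [ord_cInf_jF, ord_cInf_jN]
    have : (2 : ℤ) ≤ N := by exact_mod_cast hN
    omega

theorem IsCusp0.nearZero {z : Place Kbar (FN N)} (hz : IsCusp0 N z) (hN : 2 ≤ N)
    (A : ValuationSubring Kbar) : NearZero N A z := by
  have : (2 : ℤ) ≤ N := by exact_mod_cast hN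
  apply nearZero_of_ord
  · rw [hz.ord_j]; omega
  · rw [hz.ord_j, hz.ord_jN]; omega

end Fermat.Agent.S15.A

end
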