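/-
S15, block A (helper17): the criterion for `NearInf`, `NearZero` at non cuspidal places
(interface with block C).
-/
import Fermat.Agent.S15.A.Near

set_option autoImplicit false

noncomputable section

namespace Fermat.Agent.S15.A

open ModularCurve AlgebraicCurve Fermat.Agent.S24 Fermat.Agent.S27 Fermat.Agent.S37

variable {N : ℕ} [NeZero N] {A : ValuationSubring Kbar} {P : Place Kbar (FN N)}

/-- `V(f) ≤ 1 ↔ |f(P)| ≤ 1` for `f` regular at `P`. -/
theorem one_lt_comp_iff {f : FN N} (h : 0 ≤ P.ord f) :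
    1 < (compRing A P).valuation f ↔ 1 < A.valuation (val P f) := by
  rw [one_lt_valuation_iff, one_lt_valuation_iff, mem_compRing]
  exact ⟨fun h1 h2 => h1 ⟨h, h2⟩, fun h1 h2 => h1 h2.2⟩

/-- comparison of the composite valuation with `A` (`g` a unit at `P`, `f` regular at `P`). -/
theorem comp_lt_iff {f g : FN N} (hf : 0 ≤ P.ord f) (hg0 : g ≠ 0) (hg : P.ord g = 0) :
    (compRing A P).valuation f < (compRing A P).valuation g ↔
      A.valuation (val P f) < A.valuation (val P g) := by
  rw [valuation_lt_iff hg0, valuation_lt_iff (val_ne_zero_of_ord_eq_zero hg0 hg),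
    mem_nonunits_compRing, val_div hf hg]
  have h0 : 0 ≤ P.ord (f / g) := by
    rw [div_eq_mul_inv]
    exact ord_mul_nonneg hf (by rw [P.ord_inv, hg, neg_zero])
  exact ⟨fun h => h.2, fun h => ⟨h0, h⟩⟩

theorem comp_lt_iff' {f g : FN N} (hf : 0 ≤ P.ord f) (hg0 : g ≠ 0) (hg : P.ord g = 0) :
    (compRing A P).valuation g < (compRing A P).valuation f ↔
      A.valuation (val P g) < A.valuation (val P f) := by
  by_cases hv : val P f = 0
  · have h1 : A.valuation (val P f) < A.valuation (val P g) := by
      rw [hv, map_zero]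
      exact zero_lt_iff.2 ((Valuation.ne_zero_iff _).2 (val_ne_zero_of_ord_eq_zero hg0 hg))
    have h2 := (comp_lt_iff hf hg0 hg).2 h1
    exact ⟨fun h => absurd h (lt_asymm h2), fun h => absurd h (lt_asymm h1)⟩
  · have hf0 : f ≠ 0 := fun h0 => hv (by rw [h0, val_zero])
    have hf' : P.ord f = 0 := by
      have h3 : ¬ 0 < P.ord f := fun h3 => hv (val_of_pos h3)
      omega
    exact comp_lt_iff hg.ge hf0 hf'

omit [NeZero N] in
/-- a regular function whose value is not in `A` is a unit at `P` -/
theorem nearIff_ord_eq_zero {f : FN N} (h : 0 ≤ P.ord f) (h1 : 1 < A.valuation (val P f)) :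
    P.ord f = 0 := by
  have h3 : ¬ 0 < P.ord f := fun h3 => by
    rw [val_of_pos h3, map_zero] at h1
    exact absurd h1 (not_lt.2 zero_le_one)
  omega

/-- the criterion for non cuspidal places (interface with block C) -/
theorem nearInf_iff (h : 0 ≤ P.ord (jF N)) (h' : 0 ≤ P.ord (jN N)) :
    NearInf N A P ↔ 1 < A.valuation (val P (jF N)) ∧
      A.valuation (val P (jF N)) < A.valuation (val P (jN N)) := by
  rw [NearInf, VInf, one_lt_comp_iff h]
  refine and_congr_right fun h1 => ?_
  exact comp_lt_iff' h' jF_ne_zero (nearIff_ord_eq_zero h h1)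

theorem nearZero_iff (h : 0 ≤ P.ord (jF N)) (h' : 0 ≤ P.ord (jN N)) :
    NearZero N A P ↔ 1 < A.valuation (val P (jF N)) ∧
      A.valuation (val P (jN N)) < A.valuation (val P (jF N)) := by
  rw [NearZero, VZero, one_lt_comp_iff h]
  refine and_congr_right fun h1 => ?_
  exact comp_lt_iff h' jF_ne_zero (nearIff_ord_eq_zero h h1)

end Fermat.Agent.S15.A

end
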