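/-
S15, block A (helper17): basic lemmas on `NearInf`, `NearZero`, `NN`, `cc`.
-/
import Fermat.Agent.S15.A.Defs
import Fermat.Agent.S17.NG.Equiv

set_option autoImplicit false

noncomputable section

namespace Fermat.Agent.S15.A

open ModularCurve AlgebraicCurve Fermat.Agent.S24 Fermat.Agent.S27 Fermat.Agent.S37

variable {N : ℕ} [NeZero N]

/-- the class of a difference of two fixed places is rational -/
theorem isRat_cls {P P' : Place Kbar (FN N)} (hP : FixedPl N P) (hP' : FixedPl N P') :
    IsRat N (cls (pt P - pt P')) := by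
  intro σ
  rw [galois_smul_pic0_def, ← Fermat.Agent.S17.NG.cls_smul, smul_sub, pt, pt,
    SemilinearAut.smul_single, SemilinearAut.smul_single, hP σ, hP' σ]

theorem cls_mem_NN {A : ValuationSubring Kbar} {P P' : Place Kbar (FN N)} (h : Same N A P P') :
    cls (pt P - pt P') ∈ NN N A :=
  AddSubgroup.subset_closure ⟨P, P', h, rfl⟩

/-- elements of the Hecke ring preserve `NN` -/
theorem TT_stable (hH : HeckeStable N) (A : ValuationSubring Kbar) (M : ℕ) (hM : N ∣ M)
    (t : AddMonoid.End (JZero N)) (ht : t ∈ TT N M) : ∀ x ∈ NN N A, t x ∈ NN N A := by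
  induction ht using Subring.closure_induction with
  | mem t ht =>
    obtain ⟨p, hp, hpM, rfl⟩ := ht
    exact hH A p hp fun h => hpM (h.trans hM)
  | zero => intro x _; exact (NN N A).zero_mem
  | one => intro x hx; exact hx
  | add s t _ _ hs ht => intro x hx; exact (NN N A).add_mem (hs x hx) (ht x hx)
  | neg s _ hs => intro x hx; exact (NN N A).neg_mem (hs x hx)
  | mul s t _ _ hs ht => intro x hx; exact hs _ (ht x hx)

end Fermat.Agent.S15.A

end
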