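/-
S15, block A (helper17): the endgame.  `RankZero` + `Dict` + the contracts of block A imply the
frozen statement S15.
-/
import Fermat.Agent.S15.A.Basic
import Fermat.Agent.S15.A.Near
import Fermat.Agent.Lib.Frobenius

set_option autoImplicit false

noncomputable section

namespace Fermat.Agent.S15.A

open ModularCurve AlgebraicCurve Fermat.Agent.S24 Fermat.Agent.S27 Fermat.Agent.S37
open WeierstrassCurve WeierstrassCurve.Affine

variable {N : ℕ} [NeZero N]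

/-- a torsion element of `NN_{A₂} ∩ NN_{A₃}` is zero -/
theorem eq_zero_of_mem_two_three (hT : TorsFree N) (h2N : ¬ 2 ∣ N) (h3N : ¬ 3 ∣ N)
    {A₂ A₃ : ValuationSubring Kbar} (hA₂ : A₂.LiesOverPrime 2) (hA₃ : A₃.LiesOverPrime 3)
    {x : JZero N} (hx₂ : x ∈ NN N A₂) (hx₃ : x ∈ NN N A₃) {m : ℕ} (hm : 0 < m)
    (hmx : m • x = 0) : x = 0 := by
  obtain ⟨a, m', hm', rfl⟩ := Nat.exists_eq_two_pow_mul_odd hm.ne'
  have h1 : (2 ^ a) • x = 0 := by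
    refine hT 2 Nat.prime_two h2N A₂ hA₂ _ ((NN N A₂).nsmul_mem hx₂ _) m' ?_ ?_
    · exact fun h => (Nat.not_even_iff_odd.2 hm') (even_iff_two_dvd.2 h)
    · rw [← mul_nsmul, hmx]
  refine hT 3 Nat.prime_three h3N A₃ hA₃ x hx₃ (2 ^ a) ?_ h1
  intro h
  have := Nat.prime_three.dvd_of_dvd_pow h
  omega

/-- **The endgame.** -/
theorem endgame (hN : N.Prime) (hRZ : RankZero N) (z : Place Kbar (FN N)) (hC : CuspStmt N z)
    (hE : EisStmt N z) (hH : HeckeStable N) (hT : TorsFree N) (hR : RCase N z)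
    (h2N : ¬ 2 ∣ N) (h3N : ¬ 3 ∣ N)
    (x : Place Kbar (FN N)) (hx : FixedPl N x)
    {A₂ A₃ : ValuationSubring Kbar} (hA₂ : A₂.LiesOverPrime 2) (hA₃ : A₃.LiesOverPrime 3)
    (hx₂ : NearZero N A₂ x) (hx₃ : NearZero N A₃ x)
    {ℓ : ℕ} (hℓ : ℓ.Prime) (hℓ5 : 5 ≤ ℓ) (hℓN : ¬ ℓ ∣ N)
    {A : ValuationSubring Kbar} (hA : A.LiesOverPrime ℓ) (hxA : NearInf N A x) : False := by
  obtain ⟨hz, hzfix, hctors, hc0⟩ := hC
  have hN2 : 2 ≤ N := hN.two_le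
  set c : JZero N := cc N z with hc
  -- the order of `c`
  have hfin : IsOfFinAddOrder c :=
    isOfFinAddOrder_iff_nsmul_eq_zero.2 ⟨N - 1, by omega, hctors⟩
  have hn0 : 0 < addOrderOf c := hfin.addOrderOf_pos
  have hn1 : addOrderOf c ≠ 1 := fun h => hc0 (AddMonoid.addOrderOf_eq_one_iff.1 h)
  set n := addOrderOf c with hn
  obtain ⟨r, hr, hrn⟩ := Nat.exists_prime_and_dvd hn1
  have hcrat : IsRat N c := isRat_cls hzfix (Fermat.Agent.S17.W.smul_cusp N)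
  have hrN : r ≠ N := by
    rintro rfl
    have h1 : n ∣ r - 1 := addOrderOf_dvd_of_nsmul_eq_zero hctors
    have h2 := Nat.le_of_dvd (by omega) (hrn.trans h1)
    omega
  obtain ⟨t, ht, d, htc, hrd, htors⟩ := hRZ c r hr hrN hn0 hrn hcrat hE
  have hstab := TT_stable hH
  -- `y = (x) - (0)`
  set y : JZero N := cls (pt x - pt z) with hy
  have hyrat : IsRat N y := isRat_cls hx hzfix
  obtain ⟨m, hm, hmty⟩ := htors y hyrat
  have hty : t y = 0 := by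
    refine eq_zero_of_mem_two_three hT h2N h3N hA₂ hA₃ ?_ ?_ hm hmty
    · exact hstab A₂ _ (dvd_mul_right N r) t ht _
        (cls_mem_NN (Or.inr ⟨hx₂, hz.nearZero hN2 A₂⟩))
    · exact hstab A₃ _ (dvd_mul_right N r) t ht _
        (cls_mem_NN (Or.inr ⟨hx₃, hz.nearZero hN2 A₃⟩))
  -- `y' = (x) - (∞)`
  set y' : JZero N := cls (pt x - pt (cInf N)) with hy'
  have hyy' : y + c = y' := cls_pt_sub_pt_add x z (cInf N)
  have hty' : t y' = d • c := by rw [← hyy', map_add, hty, zero_add, htc]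
  have hdc : d • c ∈ NN N A := by
    rw [← hty']
    exact hstab A _ (dvd_mul_right N r) t ht _ (cls_mem_NN (Or.inl ⟨hxA, nearInf_cInf hN2 A⟩))
  -- the element of order `r`
  obtain ⟨e, he⟩ := hrn
  have he0 : e ≠ 0 := by
    rintro rfl
    rw [mul_zero] at he
    omega
  set k : ℤ := (e : ℤ) * d with hk
  have hkc : k • c ∈ NN N A := by
    rw [hk, mul_zsmul, natCast_zsmul]
    exact (NN N A).nsmul_mem hdc e
  have hrk : r • (k • c) = 0 := by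
    rw [← natCast_zsmul, ← mul_zsmul, hk, ← mul_assoc, mul_comm, mul_zsmul]
    have : ((r : ℤ) * (e : ℤ)) • c = 0 := by
      rw [← Nat.cast_mul, ← he, natCast_zsmul, hn]
      exact addOrderOf_nsmul_eq_zero c
    rw [this, smul_zero]
  have hkne : k • c ≠ 0 := by
    intro h
    have h1 : (n : ℤ) ∣ k := (addOrderOf_dvd_iff_zsmul_eq_zero).2 h
    rw [he, hk, Nat.cast_mul, mul_comm (r : ℤ)] at h1
    exact hrd (Int.dvd_of_mul_dvd_mul_left (by exact_mod_cast he0) h1)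
  by_cases hℓr : ℓ = r
  · subst hℓr
    exact hkne (hR ℓ hℓ hℓ5 hℓN A hA k hkc hrk)
  · refine hkne (hT ℓ hℓ hℓN A hA _ hkc r ?_ hrk)
    intro h
    exact hℓr ((Nat.prime_dvd_prime_iff_eq hℓ hr).1 h)

/-- **S15 from the contracts.** -/
theorem s15_of_contracts {p : ℕ} (hp : p.Prime) (hp' : p ∉ ({2, 3, 5, 7, 13} : Finset ℕ))
    [NeZero p] (hRZ : RankZero p) (hD : Dict p) (z : Place Kbar (FN p)) (hC : CuspStmt p z)
    (hE : EisStmt p z) (hH : HeckeStable p) (hT : TorsFree p) (hR : RCase p z)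
    (W : WeierstrassCurve ℤ) (hΔ : W.Δ ≠ 0)
    (Q : ((W.map (Int.castRingHom ℚ))⁄(AlgebraicClosure ℚ)).Point)
    (hQfix : ∀ σ : AlgebraicClosure ℚ ≃ₐ[ℚ] AlgebraicClosure ℚ, σ • Q = Q)
    (hQord : addOrderOf Q = p)
    (h2Δ : (2 : ℤ) ∣ W.Δ) (h2c₄ : ¬ (2 : ℤ) ∣ W.c₄)
    (h2 : ∀ A : ValuationSubring (AlgebraicClosure ℚ), A.LiesOverPrime 2 →
      ¬ W.InZeroComponentAt A Q)
    (h3Δ : (3 : ℤ) ∣ W.Δ) (h3c₄ : ¬ (3 : ℤ) ∣ W.c₄)
    (h3 : ∀ A : ValuationSubring (AlgebraicClosure ℚ), A.LiesOverPrime 3 →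
      ¬ W.InZeroComponentAt A Q)
    {ℓ : ℕ} (hℓ : ℓ.Prime) (hℓp : ℓ ≠ p) (hℓΔ : (ℓ : ℤ) ∣ W.Δ) (hℓc₄ : ¬ (ℓ : ℤ) ∣ W.c₄)
    (A : ValuationSubring (AlgebraicClosure ℚ)) (hA : A.LiesOverPrime ℓ) :
    ¬ W.InZeroComponentAt A Q := by
  intro hin
  have hp2 : p ≠ 2 := by rintro rfl; simp at hp'
  have hp3 : p ≠ 3 := by rintro rfl; simp at hp'
  have hℓ2 : ℓ ≠ 2 := by rintro rfl; exact h2 A hA hin
  have hℓ3 : ℓ ≠ 3 := by rintro rfl; exact h3 A hA hin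
  have hℓ5 : 5 ≤ ℓ := by
    have h2 := hℓ.two_le
    have h4 : ℓ ≠ 4 := by rintro rfl; exact absurd hℓ (by norm_num)
    omega
  obtain ⟨x, hxfix, hx⟩ := hD W hΔ Q hQfix hQord h2Δ h2c₄ h2
  obtain ⟨A₂, _, hA₂, _⟩ := Fermat.Agent.Lib.Frobenius.exists_liesOverPrime_isFrobeniusAt 2
    Nat.prime_two
  obtain ⟨A₃, _, hA₃, _⟩ := Fermat.Agent.Lib.Frobenius.exists_liesOverPrime_isFrobeniusAt 3
    Nat.prime_three
  refine endgame hp hRZ z hC hE hH hT hR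
    (fun h => hp2 ((Nat.prime_dvd_prime_iff_eq Nat.prime_two hp).1 h).symm)
    (fun h => hp3 ((Nat.prime_dvd_prime_iff_eq Nat.prime_three hp).1 h).symm)
    x hxfix hA₂ hA₃
    ((hx 2 Nat.prime_two hp2.symm (by exact_mod_cast h2Δ) (by exact_mod_cast h2c₄) A₂ hA₂).2
      (h2 A₂ hA₂))
    ((hx 3 Nat.prime_three hp3.symm (by exact_mod_cast h3Δ) (by exact_mod_cast h3c₄) A₃ hA₃).2
      (h3 A₃ hA₃))
    hℓ hℓ5 (fun h => hℓp ((Nat.prime_dvd_prime_iff_eq hℓ hp).1 h)) hA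
    ((hx ℓ hℓ hℓp hℓΔ hℓc₄ A hA).1 hin)

end Fermat.Agent.S15.A

end
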